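import Fermat.Agent.WignerWeakLaw.Variance
import Mathlib.Analysis.Matrix.Spectrum
import Mathlib.Topology.Instances.Matrix
import Mathlib.Topology.ContinuousMap.Weierstrass
import Mathlib.MeasureTheory.Constructions.BorelSpace.Metrizable

/-!
# Averages over the eigenvalues
-/

set_option autoImplicit false

noncomputable section

namespace FA.WignerWeakLaw

open Finset MeasureTheory Filter Topology
open FA.WignerSemicircle (wignerMatrix)

variable {n : ℕ}

theorem isHermitian_scaled (X : Sym2 (Fin n) → ℝ) :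
    ((√(n : ℝ))⁻¹ • wignerMatrix X).IsHermitian :=
  Matrix.IsHermitian.ext fun i j => by simp [wignerMatrix, Sym2.eq_swap (a := i)]

/-- The eigenvalues of `W / √n`. -/
def wignerEigen (X : Sym2 (Fin n) → ℝ) : Fin n → ℝ := (isHermitian_scaled X).eigenvalues

/-- The mean of `f` over the eigenvalues. -/
def spectralMean (f : ℝ → ℝ) (X : Sym2 (Fin n) → ℝ) : ℝ := (n : ℝ)⁻¹ * ∑ i, f (wignerEigen X i)

theorem trace_pow_eigen {ι : Type*} [Fintype ι] [DecidableEq ι] {A : Matrix ι ι ℝ}
    (hA : A.IsHermitian) (k : ℕ) : (A ^ k).trace = ∑ i, hA.eigenvalues i ^ k := by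
  conv_lhs => rw [hA.spectral_theorem, ← map_pow, Unitary.conjStarAlgAut_apply,
    Matrix.trace_mul_cycle, Unitary.coe_star_mul_self, one_mul, Matrix.diagonal_pow,
    Matrix.trace_diagonal]
  simp

theorem spectralMean_pow (k : ℕ) (X : Sym2 (Fin n) → ℝ) :
    spectralMean (fun x => x ^ k) X = scaledTrace k X := by
  rw [spectralMean, scaledTrace, trace_pow_eigen (isHermitian_scaled X)]
  rfl

theorem spectralMean_poly (P : Polynomial ℝ) (X : Sym2 (Fin n) → ℝ) :
    spectralMean (fun x => P.eval x) X =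
      ∑ i ∈ range (P.natDegree + 1), P.coeff i * scaledTrace i X := by
  simp only [← spectralMean_pow, spectralMean, Polynomial.eval_eq_sum_range]
  rw [sum_comm, mul_sum]
  refine sum_congr rfl fun i _ => ?_
  rw [← mul_sum]
  ring

theorem continuous_scaledTrace (k : ℕ) : Continuous (scaledTrace (n := n) k) := by
  have hW : Continuous fun X : Sym2 (Fin n) → ℝ => (√(n : ℝ))⁻¹ • wignerMatrix X :=
    continuous_matrix fun i j =>
      (continuous_apply (s(i, j) : Sym2 (Fin n))).const_smul (√(n : ℝ))⁻¹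
  exact continuous_const.mul (hW.pow k).matrix_trace

theorem measurable_spectralMean {f : ℝ → ℝ} (hf : Continuous f) :
    Measurable (spectralMean (n := n) f) := by
  choose P hP using fun k : ℕ => exists_polynomial_near_of_continuousOn (-(k : ℝ)) k f
    hf.continuousOn (1 / ((k : ℝ) + 1)) (by positivity)
  refine measurable_of_tendsto_metrizable (f := fun k X => spectralMean (fun x => (P k).eval x) X)
    (fun k => ?_) (tendsto_pi_nhds.2 fun X => ?_)
  · simp only [spectralMean_poly]
    exact (continuous_finsetSum _ fun i _ =>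
      continuous_const.mul (continuous_scaledTrace i)).measurable
  · refine (tendsto_finsetSum _ fun i _ => ?_).const_mul _
    refine tendsto_iff_dist_tendsto_zero.2 (squeeze_zero' (.of_forall fun k => dist_nonneg) ?_
      tendsto_one_div_add_atTop_nhds_zero_nat)
    filter_upwards [eventually_ge_atTop ⌈|wignerEigen X i|⌉₊] with k hk
    have h : |wignerEigen X i| ≤ k := (Nat.le_ceil _).trans (Nat.cast_le.2 hk)
    rw [Real.dist_eq]
    exact (hP k _ (Set.mem_Icc.2 (abs_le.1 h))).le

theorem abs_spectralMean_le {f : ℝ → ℝ} {C : ℝ} (hC : 0 ≤ C) (hf : ∀ x, |f x| ≤ C)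
    (X : Sym2 (Fin n) → ℝ) : |spectralMean f X| ≤ C := by
  rcases n.eq_zero_or_pos with hn | hn
  · simp [spectralMean, hn, hC]
  rw [spectralMean, abs_mul, abs_inv, Nat.abs_cast, inv_mul_le_iff₀ (Nat.cast_pos.2 hn)]
  refine (abs_sum_le_sum_abs _ _).trans ((sum_le_sum fun i _ => hf _).trans ?_)
  rw [sum_const, card_univ, Fintype.card_fin, nsmul_eq_mul]

theorem spectralMean_mono {f g : ℝ → ℝ} (h : ∀ x, f x ≤ g x) (X : Sym2 (Fin n) → ℝ) :
    spectralMean f X ≤ spectralMean g X :=
  mul_le_mul_of_nonneg_left (sum_le_sum fun _ _ => h _) (by positivity)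

theorem integrable_spectralMean (μ : Measure ℝ) [IsProbabilityMeasure μ] {f : ℝ → ℝ}
    (hf : Continuous f) {C : ℝ} (hC : 0 ≤ C) (hb : ∀ x, |f x| ≤ C) :
    Integrable (spectralMean (n := n) f) (Measure.pi fun _ => μ) :=
  Integrable.of_bound (measurable_spectralMean hf).aestronglyMeasurable C
    (.of_forall fun X => abs_spectralMean_le hC hb X)

end FA.WignerWeakLaw
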