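import Fermat.Agent.WignerWeakLaw.Weak

/-!
# Intervals
-/

set_option autoImplicit false

noncomputable section

namespace FA.WignerWeakLaw

open Finset MeasureTheory Filter Topology

/-- A continuous function between the indicators of `[a, b]` and `[a - 1 / k, b + 1 / k]`. -/
def outerCut (a b : ℝ) (k : ℕ) (x : ℝ) : ℝ :=
  max 0 (min 1 (min (((k : ℝ) + 1) * (x - a) + 1) (((k : ℝ) + 1) * (b - x) + 1)))

/-- A continuous function below the indicator of `[a, b]`. -/
def innerCut (a b : ℝ) (k : ℕ) (x : ℝ) : ℝ :=
  max 0 (min 1 (min (((k : ℝ) + 1) * (x - a)) (((k : ℝ) + 1) * (b - x))))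

theorem continuous_outerCut (a b : ℝ) (k : ℕ) : Continuous (outerCut a b k) := by
  unfold outerCut; fun_prop

theorem continuous_innerCut (a b : ℝ) (k : ℕ) : Continuous (innerCut a b k) := by
  unfold innerCut; fun_prop

theorem abs_outerCut_le (a b : ℝ) (k : ℕ) (x : ℝ) : |outerCut a b k x| ≤ 1 := by
  rw [outerCut, abs_of_nonneg (le_max_left _ _)]
  exact max_le zero_le_one (min_le_left _ _)

theorem abs_innerCut_le (a b : ℝ) (k : ℕ) (x : ℝ) : |innerCut a b k x| ≤ 1 := by
  rw [innerCut, abs_of_nonneg (le_max_left _ _)]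
  exact max_le zero_le_one (min_le_left _ _)

/-- The indicator of `[a, b]`. -/
def boxInd (a b x : ℝ) : ℝ := (Set.Icc a b).indicator 1 x

theorem innerCut_le (a b : ℝ) (k : ℕ) (x : ℝ) : innerCut a b k x ≤ boxInd a b x := by
  rw [innerCut, boxInd]
  by_cases h : x ∈ Set.Icc a b
  · rw [Set.indicator_of_mem h]
    exact max_le zero_le_one (min_le_left _ _)
  · rw [Set.indicator_of_notMem h]
    refine max_le le_rfl ((min_le_right _ _).trans ?_)
    rcases lt_or_ge x a with ha | ha
    · exact (min_le_left _ _).trans (mul_nonpos_of_nonneg_of_nonpos (by positivity) (by linarith))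
    · refine (min_le_right _ _).trans (mul_nonpos_of_nonneg_of_nonpos (by positivity) ?_)
      by_contra hb
      exact h ⟨ha, by linarith⟩

theorem le_outerCut (a b : ℝ) (k : ℕ) (x : ℝ) : boxInd a b x ≤ outerCut a b k x := by
  rw [outerCut, boxInd]
  by_cases h : x ∈ Set.Icc a b
  · rw [Set.indicator_of_mem h, Pi.one_apply]
    refine le_max_of_le_right (le_min le_rfl (le_min ?_ ?_))
    · nlinarith [h.1, Nat.cast_nonneg (α := ℝ) k]
    · nlinarith [h.2, Nat.cast_nonneg (α := ℝ) k]
  · rw [Set.indicator_of_notMem h]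
    exact le_max_left _ _

theorem tendsto_outerCut (a b x : ℝ) :
    Tendsto (fun k => outerCut a b k x) atTop (𝓝 (boxInd a b x)) := by
  by_cases h : x ∈ Set.Icc a b
  · refine tendsto_const_nhds.congr fun k => le_antisymm (le_outerCut a b k x) ?_
    rw [boxInd, Set.indicator_of_mem h, Pi.one_apply]
    exact (le_abs_self _).trans (abs_outerCut_le a b k x)
  · rw [boxInd, Set.indicator_of_notMem h]
    obtain ⟨c, hc, hc'⟩ : ∃ c > 0, min (x - a) (b - x) ≤ -c := by
      rcases lt_or_ge x a with ha | ha
      · exact ⟨a - x, by linarith, (min_le_left _ _).trans (by linarith)⟩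
      · exact ⟨x - b, by by_contra hb; exact h ⟨ha, by linarith⟩,
          (min_le_right _ _).trans (by linarith)⟩
    refine tendsto_const_nhds.congr' ?_
    filter_upwards [eventually_ge_atTop ⌈c⁻¹⌉₊] with k hk
    have hk' : 1 ≤ ((k : ℝ) + 1) * c := by
      have h1 := mul_le_mul_of_nonneg_right ((Nat.le_ceil c⁻¹).trans (Nat.cast_le.2 hk)) hc.le
      rw [inv_mul_cancel₀ hc.ne'] at h1
      linarith
    refine (max_eq_left ((min_le_right _ _).trans ?_)).symm
    rcases min_le_iff.1 hc' with h1 | h1
    · refine (min_le_left _ _).trans ?_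
      have := mul_le_mul_of_nonneg_left h1 (show (0 : ℝ) ≤ (k : ℝ) + 1 by positivity)
      linarith
    · refine (min_le_right _ _).trans ?_
      have := mul_le_mul_of_nonneg_left h1 (show (0 : ℝ) ≤ (k : ℝ) + 1 by positivity)
      linarith

theorem tendsto_innerCut (a b x : ℝ) (hx : x ≠ a ∧ x ≠ b) :
    Tendsto (fun k => innerCut a b k x) atTop (𝓝 (boxInd a b x)) := by
  by_cases h : x ∈ Set.Icc a b
  · have ha : 0 < x - a := sub_pos.2 (lt_of_le_of_ne h.1 hx.1.symm)
    have hb : 0 < b - x := sub_pos.2 (lt_of_le_of_ne h.2 hx.2)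
    rw [boxInd, Set.indicator_of_mem h, Pi.one_apply]
    refine tendsto_const_nhds.congr' ?_
    filter_upwards [eventually_ge_atTop ⌈(min (x - a) (b - x))⁻¹⌉₊] with k hk
    have hc : 0 < min (x - a) (b - x) := lt_min ha hb
    have h1 := mul_le_mul_of_nonneg_right ((Nat.le_ceil _).trans (Nat.cast_le.2 hk)) hc.le
    rw [inv_mul_cancel₀ hc.ne'] at h1
    have h2 := mul_le_mul_of_nonneg_left (min_le_left (x - a) (b - x)) (Nat.cast_nonneg (α := ℝ) k)
    have h3 := mul_le_mul_of_nonneg_left (min_le_right (x - a) (b - x)) (Nat.cast_nonneg (α := ℝ) k)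
    rw [innerCut, min_eq_left (le_min (by linarith) (by linarith)), max_eq_right zero_le_one]
  · refine tendsto_const_nhds.congr fun k => le_antisymm ?_ (innerCut_le a b k x)
    rw [boxInd, Set.indicator_of_notMem h]
    exact le_max_left _ _

theorem intervalIntegrable_boxInd (a b : ℝ) :
    IntervalIntegrable (fun x => boxInd a b x * √(4 - x ^ 2)) volume (-2) 2 := by
  rw [intervalIntegrable_iff]
  refine Integrable.mono' (intervalIntegrable_iff.1 (intervalIntegrable_semi (f := fun _ => (1 : ℝ))
    continuous_const)) ?_ (.of_forall fun x => ?_)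
  · exact (((measurable_const.indicator measurableSet_Icc).mul
      (by fun_prop : Measurable fun x : ℝ => √(4 - x ^ 2)))).aestronglyMeasurable
  · rw [Real.norm_eq_abs, abs_mul, abs_of_nonneg (Real.sqrt_nonneg _)]
    refine mul_le_mul_of_nonneg_right ?_ (Real.sqrt_nonneg _)
    rw [boxInd, Set.indicator_apply]
    split_ifs <;> simp

theorem tendsto_semiMean_cut (a b : ℝ) (g : ℕ → ℝ → ℝ) (hg : ∀ k, Continuous (g k))
    (hb : ∀ k x, |g k x| ≤ 1)
    (hlim : ∀ x, x ≠ a → x ≠ b → Tendsto (fun k => g k x) atTop (𝓝 (boxInd a b x))) :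
    Tendsto (fun k => semiMean (g k)) atTop (𝓝 (semiMean (boxInd a b))) := by
  refine Tendsto.const_mul _ ?_
  refine intervalIntegral.tendsto_integral_filter_of_dominated_convergence
    (fun x => √(4 - x ^ 2)) (.of_forall fun k => ?_) (.of_forall fun k => .of_forall fun x _ => ?_)
    ((by fun_prop : Continuous fun x : ℝ => √(4 - x ^ 2)).intervalIntegrable _ _) ?_
  · exact ((hg k).mul (by fun_prop)).aestronglyMeasurable
  · rw [Real.norm_eq_abs, abs_mul, abs_of_nonneg (Real.sqrt_nonneg _)]
    exact mul_le_of_le_one_left (Real.sqrt_nonneg _) (hb k x)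
  · filter_upwards [(Measure.ae_ne volume a), (Measure.ae_ne volume b)] with x ha hb' _
    exact (hlim x ha hb').mul_const _

theorem tendsto_interval (μ : Measure ℝ) [IsProbabilityMeasure μ]
    (hμ : ∀ j : ℕ, Integrable (fun x => x ^ j) μ) (h1 : ∫ x, x ∂μ = 0)
    (h2 : ∫ x, x ^ 2 ∂μ = 1) (a b : ℝ) :
    Tendsto (fun n : ℕ => ∫ X, |spectralMean (boxInd a b) X - semiMean (boxInd a b)|
      ∂(Measure.pi fun _ : Sym2 (Fin n) => μ)) atTop (𝓝 0) := by
  refine Metric.tendsto_atTop'.2 fun η hη => ?_
  have hout := tendsto_semiMean_cut a b _ (continuous_outerCut a b) (abs_outerCut_le a b)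
    fun x _ _ => tendsto_outerCut a b x
  have hin := tendsto_semiMean_cut a b _ (continuous_innerCut a b) (abs_innerCut_le a b)
    fun x ha hb => tendsto_innerCut a b x ⟨ha, hb⟩
  have hgap := hout.sub hin
  rw [sub_self] at hgap
  obtain ⟨k, hk⟩ := (hgap.eventually_lt_const (show (0 : ℝ) < η / 3 by positivity)).exists
  obtain ⟨N, hN⟩ := (((tendsto_spectralMean μ hμ h1 h2 (continuous_outerCut a b k)
      (abs_outerCut_le a b k)).eventually_lt_const (show (0 : ℝ) < η / 3 by positivity)).and
    ((tendsto_spectralMean μ hμ h1 h2 (continuous_innerCut a b k)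
      (abs_innerCut_le a b k)).eventually_lt_const (show (0 : ℝ) < η / 3 by positivity))
    ).exists_forall_of_atTop
  refine ⟨N, fun n hn => ?_⟩
  obtain ⟨ho, hi⟩ := hN n hn.le
  rw [Real.dist_0_eq_abs, abs_of_nonneg (integral_nonneg fun X => abs_nonneg _)]
  set π' := Measure.pi fun _ : Sym2 (Fin n) => μ
  have hpt : ∀ X : Sym2 (Fin n) → ℝ,
      |spectralMean (boxInd a b) X - semiMean (boxInd a b)| ≤
        |spectralMean (outerCut a b k) X - semiMean (outerCut a b k)| +
          |spectralMean (innerCut a b k) X - semiMean (innerCut a b k)| +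
            (semiMean (outerCut a b k) - semiMean (innerCut a b k)) := fun X => by
    have s1 := spectralMean_mono (le_outerCut a b k) X
    have s2 := spectralMean_mono (innerCut_le a b k) X
    have s3 := semiMean_mono (intervalIntegrable_boxInd a b)
      (intervalIntegrable_semi (continuous_outerCut a b k)) fun x _ => le_outerCut a b k x
    have s4 := semiMean_mono (intervalIntegrable_semi (continuous_innerCut a b k))
      (intervalIntegrable_boxInd a b) fun x _ => innerCut_le a b k x
    rw [abs_le]
    constructor <;>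
      linarith [le_abs_self (spectralMean (outerCut a b k) X - semiMean (outerCut a b k)),
        neg_abs_le (spectralMean (innerCut a b k) X - semiMean (innerCut a b k)),
        abs_nonneg (spectralMean (outerCut a b k) X - semiMean (outerCut a b k)),
        abs_nonneg (spectralMean (innerCut a b k) X - semiMean (innerCut a b k))]
  have hmeas : Measurable (spectralMean (n := n) (boxInd a b)) :=
    measurable_of_tendsto_metrizable (fun k => measurable_spectralMean (continuous_outerCut a b k))
      (tendsto_pi_nhds.2 fun X =>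
        (tendsto_finsetSum _ fun i _ => tendsto_outerCut a b (wignerEigen X i)).const_mul _)
  have hib : Integrable (spectralMean (n := n) (boxInd a b)) π' :=
    Integrable.of_bound hmeas.aestronglyMeasurable 1 (.of_forall fun X =>
      abs_spectralMean_le zero_le_one (fun x => by
        rw [boxInd, Set.indicator_apply]; split_ifs <;> simp) X)
  have hio : Integrable (fun X : Sym2 (Fin n) → ℝ =>
      |spectralMean (outerCut a b k) X - semiMean (outerCut a b k)|) π' :=
    ((integrable_spectralMean μ (continuous_outerCut a b k) zero_le_one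
      (abs_outerCut_le a b k)).sub (integrable_const _)).abs
  have hii : Integrable (fun X : Sym2 (Fin n) → ℝ =>
      |spectralMean (innerCut a b k) X - semiMean (innerCut a b k)|) π' :=
    ((integrable_spectralMean μ (continuous_innerCut a b k) zero_le_one
      (abs_innerCut_le a b k)).sub (integrable_const _)).abs
  have hsum : Integrable (fun X : Sym2 (Fin n) → ℝ =>
      |spectralMean (outerCut a b k) X - semiMean (outerCut a b k)| +
        |spectralMean (innerCut a b k) X - semiMean (innerCut a b k)|) π' := hio.add hii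
  refine (integral_mono (hib.sub (integrable_const _)).abs
    (hsum.add (integrable_const _)) hpt).trans_lt ?_
  rw [integral_add' hsum (integrable_const _), integral_add hio hii, integral_const, probReal_univ,
    one_smul]
  linarith

theorem spectralMean_boxInd {n : ℕ} (a b : ℝ) (X : Sym2 (Fin n) → ℝ) :
    spectralMean (boxInd a b) X =
      (Nat.card {i : Fin n // wignerEigen X i ∈ Set.Icc a b} : ℝ) / n := by
  classical
  rw [Nat.card_eq_fintype_card, Fintype.card_subtype, spectralMean, div_eq_inv_mul]
  congr 1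
  simp only [boxInd, Set.indicator_apply, Pi.one_apply, sum_boole]

end FA.WignerWeakLaw
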