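import Fermat.Agent.WignerSemicircle.Count

/-!
# Two walks with a common edge

Spliced at the common edge they form one closed walk.
-/

set_option autoImplicit false

noncomputable section

namespace FA.WignerWeakLaw

open Finset
open FA.WignerSemicircle (walkEdge edgeMult seenVerts mem_seenVerts AllTwice edgeMult_pos
  exists_of_edgeMult_pos endpoint_seen extendWalk extendWalk_apply)

variable {α : Type*} [DecidableEq α] {p q : ℕ → α} {k : ℕ}

theorem edgeMult_eq_sum (p : ℕ → α) (t : ℕ) (e : Sym2 α) :
    edgeMult p t e = ∑ u ∈ range t, if walkEdge p u = e then 1 else 0 :=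
  card_filter _ _

theorem sum_rotate (g : ℕ → ℕ) (c : ℕ) :
    ∑ t ∈ range k, g ((c + t) % k) = ∑ t ∈ range k, g t := by
  induction c with
  | zero => exact sum_congr rfl fun t ht => by rw [zero_add, Nat.mod_eq_of_lt (mem_range.1 ht)]
  | succ c ih =>
    rw [← ih]
    have h := sum_range_succ (fun t => g ((c + t) % k)) k
    rw [sum_range_succ', Nat.add_mod_right, add_zero] at h
    rw [← Nat.add_right_cancel h]
    exact sum_congr rfl fun t _ => by rw [show c + 1 + t = c + (t + 1) by ring]

/-- `p` up to time `a`, all of `q` from time `c` on, then the rest of `p`. -/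
def spliceWalk (p q : ℕ → α) (k a c t : ℕ) : α :=
  if t ≤ a then p t else if t ≤ a + k then q ((c + (t - a)) % k) else p (t - k)

theorem edgeMult_splice {a c : ℕ} (ha : a < k) (hq : q 0 = q k) (hc : q (c % k) = p a)
    (e : Sym2 α) :
    edgeMult (spliceWalk p q k a c) (2 * k) e = edgeMult p k e + edgeMult q k e := by
  have hmod : ∀ i, q ((i + 1) % k) = q (i % k + 1) := fun i => by
    have h := Nat.mod_lt i (show k > 0 by omega)
    rcases eq_or_lt_of_le (show i % k + 1 ≤ k from h) with h1 | h1
    · rw [h1, ← hq]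
      congr 1
      rw [Nat.add_mod, show i % k = k - 1 by omega]
      rcases eq_or_lt_of_le (show 1 ≤ k by omega) with h2 | h2
      · simp [← h2]
      · rw [Nat.mod_eq_of_lt h2, show k - 1 + 1 = k by omega, Nat.mod_self]
    · congr 1
      rw [Nat.add_mod, Nat.mod_eq_of_lt (show 1 < k by omega), Nat.mod_eq_of_lt h1]
  have e1 : ∀ u < a, walkEdge (spliceWalk p q k a c) u = walkEdge p u := fun u hu => by
    rw [walkEdge, walkEdge, spliceWalk, spliceWalk, if_pos (by omega), if_pos (by omega)]
  have e2 : ∀ u < k, walkEdge (spliceWalk p q k a c) (a + u) = walkEdge q ((c + u) % k) := by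
    intro u hu
    have h1 : spliceWalk p q k a c (a + u) = q ((c + u) % k) := by
      rcases u.eq_zero_or_pos with rfl | h
      · rw [spliceWalk, if_pos (by omega), add_zero, add_zero, hc]
      · rw [spliceWalk, if_neg (by omega), if_pos (by omega), show a + u - a = u by omega]
    have h2 : spliceWalk p q k a c (a + u + 1) = q ((c + u) % k + 1) := by
      rw [spliceWalk, if_neg (by omega), if_pos (by omega), show a + u + 1 - a = u + 1 by omega,
        ← add_assoc, hmod]
    rw [walkEdge, walkEdge, h1, h2]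
  have e3 : ∀ u < k - a, walkEdge (spliceWalk p q k a c) (a + k + u) = walkEdge p (a + u) := by
    intro u hu
    have h2 : spliceWalk p q k a c (a + k + u + 1) = p (a + u + 1) := by
      rw [spliceWalk, if_neg (by omega), if_neg (by omega),
        show a + k + u + 1 - k = a + u + 1 by omega]
    have h1 : spliceWalk p q k a c (a + k + u) = p (a + u) := by
      rcases u.eq_zero_or_pos with rfl | h
      · rw [spliceWalk, if_neg (by omega), if_pos (by omega), show a + k + 0 - a = k by omega,
          Nat.add_mod_right, add_zero, hc]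
      · rw [spliceWalk, if_neg (by omega), if_neg (by omega),
          show a + k + u - k = a + u by omega]
    rw [walkEdge, walkEdge, h1, h2]
  have hsplit := sum_range_add (fun u => if walkEdge p u = e then (1 : ℕ) else 0) a (k - a)
  rw [Nat.add_sub_cancel' ha.le] at hsplit
  rw [edgeMult_eq_sum, edgeMult_eq_sum p k e, edgeMult_eq_sum q k e, hsplit,
    show 2 * k = a + k + (k - a) by omega, sum_range_add, sum_range_add,
    sum_congr rfl fun u hu => by rw [e1 u (mem_range.1 hu)],
    sum_congr (s₁ := range k) rfl fun u hu => by rw [e2 u (mem_range.1 hu)],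
    sum_congr (s₁ := range (k - a)) rfl fun u hu => by rw [e3 u (mem_range.1 hu)],
    sum_rotate (fun u => if walkEdge q u = e then 1 else 0) c]
  ring

/-- Every edge is used at least twice by the two walks together. -/
def TwiceTogether (p q : ℕ → α) (k : ℕ) : Prop :=
  ∀ e : Sym2 α, 0 < edgeMult p k e + edgeMult q k e → 2 ≤ edgeMult p k e + edgeMult q k e

theorem seen_of_mult {v : α} {k : ℕ} {r : ℕ → α} {e : Sym2 α} (h : 0 < edgeMult r k e)
    (hv : v ∈ e) : v ∈ seenVerts r k := by
  obtain ⟨u, hu, rfl⟩ := exists_of_edgeMult_pos h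
  exact endpoint_seen hu hv

theorem mult_of_seen {v : α} {r : ℕ → α} (hk : 0 < k) (h : v ∈ seenVerts r k) :
    ∃ e, 0 < edgeMult r k e ∧ v ∈ e := by
  obtain ⟨u, hu, rfl⟩ := mem_seenVerts.1 h
  rcases eq_or_lt_of_le hu with rfl | hu
  · obtain ⟨l, rfl⟩ := Nat.exists_eq_succ_of_ne_zero hk.ne'
    exact ⟨walkEdge r l, edgeMult_pos (Nat.lt_succ_self l), Sym2.mem_mk_right _ _⟩
  · exact ⟨walkEdge r u, edgeMult_pos hu, Sym2.mem_mk_left _ _⟩

/-- **A pair with a common edge has few vertices.** -/
theorem card_union_le (hq : q 0 = q k) (h2 : TwiceTogether p q k) {e : Sym2 α}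
    (hep : 0 < edgeMult p k e) (heq : 0 < edgeMult q k e) :
    (seenVerts p k ∪ seenVerts q k).card ≤ k + 1 := by
  obtain ⟨a, ha, hae⟩ := exists_of_edgeMult_pos hep
  obtain ⟨c, hc, hcv⟩ := mem_seenVerts.1
    (seen_of_mult heq (v := p a) (by rw [← hae]; exact Sym2.mem_mk_left _ _))
  have hcm : q (c % k) = p a := by
    rcases eq_or_lt_of_le hc with rfl | hc
    · rw [Nat.mod_self, hq, hcv]
    · rw [Nat.mod_eq_of_lt hc, hcv]
  set r := spliceWalk p q k a c
  have hm := edgeMult_splice ha hq hcm
  have htw : AllTwice r (2 * k) := fun t ht => by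
    have := edgeMult_pos (p := r) ht
    rw [hm] at this ⊢
    exact h2 _ this
  have hle := htw.card_seenVerts_le
  have hsub : seenVerts p k ∪ seenVerts q k ⊆ seenVerts r (2 * k) := fun v hv => by
    rcases mem_union.1 hv with hv | hv
    all_goals
      obtain ⟨e', he', hve⟩ := mult_of_seen (by omega) hv
      exact seen_of_mult (by rw [hm]; omega) hve
  have := card_le_card hsub
  omega

/-- Few vertices, few pairs. -/
theorem card_smallPairs (n k r : ℕ) :
    ((univ : Finset ((Fin (k + 1) → Fin n) × (Fin (k + 1) → Fin n))).filter fun pq =>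
      (seenVerts (extendWalk pq.1) k ∪ seenVerts (extendWalk pq.2) k).card ≤ r).card ≤
        n ^ r * (r ^ (k + 1) * r ^ (k + 1)) := by
  refine (card_le_card (t := (univ : Finset ((Fin r → Fin n) ×
    (Fin (k + 1) → Fin r) × (Fin (k + 1) → Fin r))).image fun fg =>
      (fg.1 ∘ fg.2.1, fg.1 ∘ fg.2.2)) fun pq hp => ?_).trans (card_image_le.trans (by simp))
  rw [mem_filter] at hp
  set S := seenVerts (extendWalk pq.1) k ∪ seenVerts (extendWalk pq.2) k
  have hmem : ∀ (w : Fin (k + 1) → Fin n) t, w t ∈ seenVerts (extendWalk w) k := fun w t =>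
    mem_seenVerts.2 ⟨t, Nat.le_of_lt_succ t.isLt, extendWalk_apply w (Nat.le_of_lt_succ t.isLt)⟩
  refine mem_image.2 ⟨(fun i => if h : (i : ℕ) < S.card then ((S.equivFin.symm ⟨i, h⟩ : S) : Fin n)
    else pq.1 0, fun t => Fin.castLE hp.2 (S.equivFin ⟨pq.1 t, mem_union_left _ (hmem _ t)⟩),
    fun t => Fin.castLE hp.2 (S.equivFin ⟨pq.2 t, mem_union_right _ (hmem _ t)⟩)), mem_univ _, ?_⟩
  refine Prod.ext (funext fun t => ?_) (funext fun t => ?_) <;> simp

end FA.WignerWeakLaw
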