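import Fermat.Agent.WignerWeakLaw.Splice
import Fermat.Agent.WignerSemicircle.Semicircle

/-!
# The variance of the traces
-/

set_option autoImplicit false

noncomputable section

namespace FA.WignerWeakLaw

open Finset MeasureTheory Filter Topology
open FA.WignerSemicircle (wignerMatrix closedWalks trace_pow trace_smul_pow walkMean momentBound
  one_le_momentBound abs_walkMean_le walkMean_eq_zero integral_trace edgeMult seenVerts extendWalk
  walkEdge exists_of_edgeMult_pos edgeMult_pos AllTwice tendsto_trace_moment limitMoment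
  semicircle_value semiIntegral)

variable {n k : ℕ} (μ : Measure ℝ)

/-- The mean of the product of the two weights. -/
def pairMean (p q : Fin (k + 1) → Fin n) : ℝ :=
  ∏ e : Sym2 (Fin n), ∫ x, x ^ (edgeMult (extendWalk p) k e + edgeMult (extendWalk q) k e) ∂μ

theorem integrable_trace_pow [IsProbabilityMeasure μ]
    (hμ : ∀ j : ℕ, Integrable (fun x => x ^ j) μ) (n k : ℕ) :
    Integrable (fun X => (wignerMatrix X ^ k).trace) (Measure.pi fun _ : Sym2 (Fin n) => μ) := by
  simp only [trace_pow]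
  exact integrable_finsetSum _ fun p _ => Integrable.fintype_prod
    (f := fun e (x : ℝ) => x ^ edgeMult (extendWalk p) k e) fun e => hμ _

theorem sq_trace (X : Sym2 (Fin n) → ℝ) :
    (wignerMatrix X ^ k).trace ^ 2 = ∑ p ∈ closedWalks n k, ∑ q ∈ closedWalks n k,
      ∏ e, X e ^ (edgeMult (extendWalk p) k e + edgeMult (extendWalk q) k e) := by
  rw [trace_pow, sq, sum_mul_sum]
  refine sum_congr rfl fun p _ => sum_congr rfl fun q _ => ?_
  rw [← prod_mul_distrib]
  simp only [pow_add]

theorem integrable_trace_sq [IsProbabilityMeasure μ]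
    (hμ : ∀ j : ℕ, Integrable (fun x => x ^ j) μ) (n k : ℕ) :
    Integrable (fun X => (wignerMatrix X ^ k).trace ^ 2)
      (Measure.pi fun _ : Sym2 (Fin n) => μ) := by
  simp only [sq_trace]
  exact integrable_finsetSum _ fun p _ => integrable_finsetSum _ fun q _ => Integrable.fintype_prod
    (f := fun e (x : ℝ) => x ^ (edgeMult (extendWalk p) k e + edgeMult (extendWalk q) k e))
    fun e => hμ _

theorem integral_trace_sq [IsProbabilityMeasure μ]
    (hμ : ∀ j : ℕ, Integrable (fun x => x ^ j) μ) (n k : ℕ) :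
    ∫ X, (wignerMatrix X ^ k).trace ^ 2 ∂(Measure.pi fun _ : Sym2 (Fin n) => μ) =
      ∑ p ∈ closedWalks n k, ∑ q ∈ closedWalks n k, pairMean μ p q := by
  have hi : ∀ p q : Fin (k + 1) → Fin n, Integrable (fun X : Sym2 (Fin n) → ℝ => ∏ e, X e ^
      (edgeMult (extendWalk p) k e + edgeMult (extendWalk q) k e)) (Measure.pi fun _ => μ) :=
    fun p q => Integrable.fintype_prod
      (f := fun e (x : ℝ) => x ^ (edgeMult (extendWalk p) k e + edgeMult (extendWalk q) k e))
      fun e => hμ _
  simp only [sq_trace]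
  rw [integral_finsetSum _ fun p _ => integrable_finsetSum _ fun q _ => hi p q]
  refine sum_congr rfl fun p _ => ?_
  rw [integral_finsetSum _ fun q _ => hi p q]
  exact sum_congr rfl fun q _ => integral_fintype_prod_eq_prod
    (f := fun e (x : ℝ) => x ^ (edgeMult (extendWalk p) k e + edgeMult (extendWalk q) k e))

theorem pairMean_eq [IsProbabilityMeasure μ] {p q : Fin (k + 1) → Fin n}
    (h : ∀ e, edgeMult (extendWalk p) k e = 0 ∨ edgeMult (extendWalk q) k e = 0) :
    pairMean μ p q = walkMean μ p * walkMean μ q := by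
  rw [pairMean, walkMean, walkMean, ← prod_mul_distrib]
  refine prod_congr rfl fun e _ => ?_
  rcases h e with h | h <;> simp [h]

theorem pairMean_single (h1 : ∫ x, x ∂μ = 0) {p q : Fin (k + 1) → Fin n}
    (h : ¬TwiceTogether (extendWalk p) (extendWalk q) k) :
    pairMean μ p q = 0 ∧ walkMean μ p * walkMean μ q = 0 := by
  rw [TwiceTogether] at h
  push Not at h
  obtain ⟨e, he, he'⟩ := h
  have hs : edgeMult (extendWalk p) k e + edgeMult (extendWalk q) k e = 1 := by omega
  refine ⟨prod_eq_zero (mem_univ e) (by rw [hs]; simpa using h1), ?_⟩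
  rcases Nat.eq_zero_or_pos (edgeMult (extendWalk p) k e) with h0 | h0
  · refine mul_eq_zero_of_right _ (prod_eq_zero (mem_univ e) ?_)
    rw [show edgeMult (extendWalk q) k e = 1 by omega]; simpa using h1
  · refine mul_eq_zero_of_left (prod_eq_zero (mem_univ e) ?_) _
    rw [show edgeMult (extendWalk p) k e = 1 by omega]; simpa using h1

theorem abs_pairMean_le [IsProbabilityMeasure μ] (p q : Fin (k + 1) → Fin n) :
    |pairMean μ p q| ≤ momentBound μ (2 * k) ^ (2 * k) := by
  classical
  set P := extendWalk p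
  set Q := extendWalk q
  rw [pairMean, ← prod_subset (subset_univ
    (FA.WignerSemicircle.walkEdges P k ∪ FA.WignerSemicircle.walkEdges Q k))]
  · rw [abs_prod]
    refine (prod_le_prod (fun _ _ => abs_nonneg _) (g := fun _ => momentBound μ (2 * k))
      fun e _ => ?_).trans
      ((prod_const _).trans_le (pow_le_pow_right₀ (one_le_momentBound μ _) ?_))
    · have h1 : edgeMult P k e ≤ k := (card_filter_le _ _).trans (card_range k).le
      have h2 : edgeMult Q k e ≤ k := (card_filter_le _ _).trans (card_range k).le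
      exact (single_le_sum (f := fun j => |∫ x, x ^ j ∂μ|) (fun j _ => abs_nonneg _)
        (mem_range.2 (show edgeMult P k e + edgeMult Q k e < 2 * k + 1 by omega))).trans
          (le_add_of_nonneg_left zero_le_one)
    · refine (Finset.card_union_le _ _).trans ?_
      have h1 : (FA.WignerSemicircle.walkEdges P k).card ≤ k :=
        card_image_le.trans (card_range k).le
      have h2 : (FA.WignerSemicircle.walkEdges Q k).card ≤ k :=
        card_image_le.trans (card_range k).le
      omega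
  · intro e _ he
    rw [mem_union, not_or] at he
    have hz : ∀ r : ℕ → Fin n, e ∉ FA.WignerSemicircle.walkEdges r k → edgeMult r k e = 0 :=
      fun r hr => Nat.eq_zero_of_not_pos fun h => by
        obtain ⟨u, hu, hue⟩ := exists_of_edgeMult_pos h
        exact hr (mem_image.2 ⟨u, mem_range.2 hu, hue⟩)
    show ∫ x, x ^ (edgeMult P k e + edgeMult Q k e) ∂μ = 1
    simp [hz P he.1, hz Q he.2]

/-- The constant of the variance bound. -/
def varianceBound (k : ℕ) : ℝ :=
  (momentBound μ (2 * k) ^ (2 * k) + (momentBound μ k ^ k) ^ 2) *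
    (((k + 1 : ℕ) : ℝ) ^ (k + 1) * ((k + 1 : ℕ) : ℝ) ^ (k + 1))

theorem covariance_le [IsProbabilityMeasure μ] (h1 : ∫ x, x ∂μ = 0) (n k : ℕ) :
    |∑ p ∈ closedWalks n k, ∑ q ∈ closedWalks n k, pairMean μ p q -
        (∑ p ∈ closedWalks n k, walkMean μ p) ^ 2| ≤ varianceBound μ k * (n : ℝ) ^ (k + 1) := by
  classical
  rw [sq, sum_mul_sum, ← sum_sub_distrib]
  simp only [← sum_sub_distrib]
  rw [← sum_product' (closedWalks n k) (closedWalks n k)
    (fun p q => pairMean μ p q - walkMean μ p * walkMean μ q)]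
  set S := (closedWalks n k ×ˢ closedWalks n k).filter fun pq =>
    (∃ e, 0 < edgeMult (extendWalk pq.1) k e ∧ 0 < edgeMult (extendWalk pq.2) k e) ∧
      TwiceTogether (extendWalk pq.1) (extendWalk pq.2) k with hS
  rw [← sum_filter_of_ne (p := fun pq : (Fin (k + 1) → Fin n) × (Fin (k + 1) → Fin n) =>
    (∃ e, 0 < edgeMult (extendWalk pq.1) k e ∧ 0 < edgeMult (extendWalk pq.2) k e) ∧
      TwiceTogether (extendWalk pq.1) (extendWalk pq.2) k) fun pq _ hne => ?_, ← hS]
  · refine (abs_sum_le_sum_abs _ _).trans ((sum_le_sum (g := fun _ =>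
      momentBound μ (2 * k) ^ (2 * k) + (momentBound μ k ^ k) ^ 2) fun pq _ => ?_).trans ?_)
    · refine (abs_sub _ _).trans (add_le_add (abs_pairMean_le μ _ _) ?_)
      rw [abs_mul, sq]
      exact mul_le_mul (abs_walkMean_le μ _) (abs_walkMean_le μ _) (abs_nonneg _)
        (pow_nonneg (zero_le_one.trans (one_le_momentBound μ k)) k)
    · rw [sum_const, nsmul_eq_mul, varianceBound, mul_assoc, mul_comm (S.card : ℝ)]
      refine mul_le_mul_of_nonneg_left ?_ (by
        have := one_le_momentBound μ (2 * k); positivity)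
      rw [mul_comm _ ((n : ℝ) ^ (k + 1))]
      exact_mod_cast (card_le_card fun pq hpq => mem_filter.2 ⟨mem_univ pq, by
        simp only [hS, mem_filter, mem_product, closedWalks, mem_univ, true_and] at hpq
        obtain ⟨⟨-, hq⟩, ⟨e, hep, heq⟩, htw⟩ := hpq
        exact card_union_le hq htw hep heq⟩).trans (card_smallPairs n k (k + 1))
  · by_contra h
    rw [not_and_or] at h
    rcases h with h | h
    · push Not at h
      refine hne (sub_eq_zero.2 (pairMean_eq μ fun e => ?_))
      rcases Nat.eq_zero_or_pos (edgeMult (extendWalk pq.1) k e) with h0 | h0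
      · exact Or.inl h0
      · exact Or.inr (Nat.le_zero.1 (h e h0))
    · obtain ⟨e1, e2⟩ := pairMean_single μ h1 h
      exact hne (by rw [e1, e2, sub_zero])

/-- `tr ((W / √n) ^ k) / n`. -/
def scaledTrace (k : ℕ) (X : Sym2 (Fin n) → ℝ) : ℝ :=
  (n : ℝ)⁻¹ * (((√(n : ℝ))⁻¹ • wignerMatrix X) ^ k).trace

theorem scaledTrace_eq (k : ℕ) (X : Sym2 (Fin n) → ℝ) :
    scaledTrace k X = (n : ℝ)⁻¹ * (√(n : ℝ))⁻¹ ^ k * (wignerMatrix X ^ k).trace := by
  rw [scaledTrace, trace_smul_pow, mul_assoc]

variable [IsProbabilityMeasure μ] (hμ : ∀ j : ℕ, Integrable (fun x => x ^ j) μ)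
  (h1 : ∫ x, x ∂μ = 0) (h2 : ∫ x, x ^ 2 ∂μ = 1)

include hμ

theorem integrable_scaledTrace (n k : ℕ) :
    Integrable (scaledTrace k) (Measure.pi fun _ : Sym2 (Fin n) => μ) := by
  rw [funext (scaledTrace_eq (n := n) k)]
  exact (integrable_trace_pow μ hμ n k).const_mul _

theorem integrable_sub_sq (n k : ℕ) (c : ℝ) :
    Integrable (fun X => (scaledTrace k X - c) ^ 2) (Measure.pi fun _ : Sym2 (Fin n) => μ) := by
  have e : (fun X : Sym2 (Fin n) → ℝ => (scaledTrace k X - c) ^ 2) = fun X =>
      ((n : ℝ)⁻¹ * (√(n : ℝ))⁻¹ ^ k) ^ 2 * (wignerMatrix X ^ k).trace ^ 2 +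
        (-(2 * c) * scaledTrace k X + c ^ 2) := by
    funext X; rw [scaledTrace_eq]; ring
  rw [e]
  exact ((integrable_trace_sq μ hμ n k).const_mul _).add
    (((integrable_scaledTrace μ hμ n k).const_mul _).add (integrable_const _))

theorem integral_sub_sq (n k : ℕ) (c : ℝ) :
    ∫ X, (scaledTrace k X - c) ^ 2 ∂(Measure.pi fun _ : Sym2 (Fin n) => μ) =
      ((n : ℝ)⁻¹ * (√(n : ℝ))⁻¹ ^ k) ^ 2 *
        (∑ p ∈ closedWalks n k, ∑ q ∈ closedWalks n k, pairMean μ p q -
          (∑ p ∈ closedWalks n k, walkMean μ p) ^ 2) +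
        ((n : ℝ)⁻¹ * (√(n : ℝ))⁻¹ ^ k * ∑ p ∈ closedWalks n k, walkMean μ p - c) ^ 2 := by
  have e : (fun X : Sym2 (Fin n) → ℝ => (scaledTrace k X - c) ^ 2) = fun X =>
      ((n : ℝ)⁻¹ * (√(n : ℝ))⁻¹ ^ k) ^ 2 * (wignerMatrix X ^ k).trace ^ 2 +
        (-(2 * c) * scaledTrace k X + c ^ 2) := by
    funext X; rw [scaledTrace_eq]; ring
  have hI : Integrable (fun X : Sym2 (Fin n) → ℝ => -(2 * c) * scaledTrace k X + c ^ 2)
      (Measure.pi fun _ => μ) :=
    ((integrable_scaledTrace μ hμ n k).const_mul _).add (integrable_const _)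
  rw [e, integral_add ((integrable_trace_sq μ hμ n k).const_mul _) hI,
    integral_add ((integrable_scaledTrace μ hμ n k).const_mul _) (integrable_const _),
    integral_const_mul, integral_const_mul, integral_trace_sq μ hμ, integral_const,
    funext (scaledTrace_eq (n := n) k), integral_const_mul, integral_trace μ hμ, probReal_univ,
    one_smul]
  ring

include h1

theorem tendsto_variance (k : ℕ) :
    Tendsto (fun n : ℕ => ∫ X, (scaledTrace k X -
        ∫ Y, scaledTrace k Y ∂(Measure.pi fun _ : Sym2 (Fin n) => μ)) ^ 2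
      ∂(Measure.pi fun _ : Sym2 (Fin n) => μ)) atTop (𝓝 0) := by
  refine squeeze_zero_norm' ?_ (tendsto_const_div_atTop_nhds_zero_nat (varianceBound μ k))
  filter_upwards [eventually_gt_atTop 0] with n hn
  have hn0 : (0 : ℝ) < n := Nat.cast_pos.2 hn
  have hmean : ∫ Y, scaledTrace k Y ∂(Measure.pi fun _ : Sym2 (Fin n) => μ) =
      (n : ℝ)⁻¹ * (√(n : ℝ))⁻¹ ^ k * ∑ p ∈ closedWalks n k, walkMean μ p := by
    rw [funext (scaledTrace_eq (n := n) k), integral_const_mul, integral_trace μ hμ]
  rw [hmean, integral_sub_sq μ hμ, sub_self, zero_pow two_ne_zero, add_zero, Real.norm_eq_abs,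
    abs_mul, abs_of_nonneg (sq_nonneg _)]
  refine (mul_le_mul_of_nonneg_left (covariance_le μ h1 n k) (sq_nonneg _)).trans_eq ?_
  rw [mul_pow, ← pow_mul, mul_comm k 2, pow_mul, inv_pow (√(n : ℝ)), Real.sq_sqrt hn0.le, inv_pow,
    inv_pow, pow_succ]
  field_simp
  ring

include h2

theorem tendsto_sq_dist (k : ℕ) :
    Tendsto (fun n : ℕ => ∫ X, (scaledTrace k X - limitMoment k) ^ 2
      ∂(Measure.pi fun _ : Sym2 (Fin n) => μ)) atTop (𝓝 0) := by
  have hmean := tendsto_trace_moment μ hμ h1 h2 k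
  have h := (tendsto_variance μ hμ h1 k).add ((hmean.sub_const (limitMoment k)).pow 2)
  rw [sub_self, zero_pow two_ne_zero, add_zero] at h
  refine h.congr fun n => ?_
  simp only [← integral_const_mul, ← scaledTrace.eq_def]
  rw [integral_sub_sq μ hμ n k (limitMoment k), integral_sub_sq μ hμ]
  have hm : ∫ Y, scaledTrace k Y ∂(Measure.pi fun _ : Sym2 (Fin n) => μ) =
      (n : ℝ)⁻¹ * (√(n : ℝ))⁻¹ ^ k * ∑ p ∈ closedWalks n k, walkMean μ p := by
    rw [funext (scaledTrace_eq (n := n) k), integral_const_mul, integral_trace μ hμ]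
  rw [hm]
  ring

theorem tendsto_abs_dist (k : ℕ) :
    Tendsto (fun n : ℕ => ∫ X, |scaledTrace k X - limitMoment k|
      ∂(Measure.pi fun _ : Sym2 (Fin n) => μ)) atTop (𝓝 0) := by
  refine Metric.tendsto_atTop.2 fun ε hε => ?_
  obtain ⟨N, hN⟩ := Metric.tendsto_atTop.1 (tendsto_sq_dist μ hμ h1 h2 k) (ε * ε / 2)
    (by positivity)
  refine ⟨N, fun n hn => ?_⟩
  have hb := hN n hn
  rw [Real.dist_0_eq_abs, abs_of_nonneg (integral_nonneg fun X => sq_nonneg _)] at hb
  rw [Real.dist_0_eq_abs, abs_of_nonneg (integral_nonneg fun X => abs_nonneg _)]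
  have hle : ∫ X, |scaledTrace k X - limitMoment k| ∂(Measure.pi fun _ : Sym2 (Fin n) => μ) ≤
      ∫ X, (1 / ε * (scaledTrace k X - limitMoment k) ^ 2 + ε / 4)
        ∂(Measure.pi fun _ : Sym2 (Fin n) => μ) := by
    refine integral_mono ((integrable_scaledTrace μ hμ n k).sub (integrable_const _)).abs
      (((integrable_sub_sq μ hμ n k _).const_mul _).add (integrable_const _)) fun X => ?_
    simp only
    have hy := sq_nonneg (|scaledTrace k X - limitMoment k| - ε / 2)
    rw [sub_sq, sq_abs] at hy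
    rw [div_mul_eq_mul_div, one_mul, div_add' _ _ _ hε.ne', le_div_iff₀ hε]
    linarith
  rw [integral_add ((integrable_sub_sq μ hμ n k _).const_mul _) (integrable_const _),
    integral_const_mul, integral_const, probReal_univ, one_smul] at hle
  refine hle.trans_lt ?_
  rw [div_mul_eq_mul_div, one_mul, div_add' _ _ _ hε.ne', div_lt_iff₀ hε]
  have := mul_pos hε hε
  linarith

end FA.WignerWeakLaw
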