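import Fermat.Agent.WignerWeakLaw.Spectral
import Mathlib.MeasureTheory.Integral.DominatedConvergence

/-!
# Convergence for continuous bounded functions and for intervals
-/

set_option autoImplicit false

noncomputable section

namespace FA.WignerWeakLaw

open Finset MeasureTheory Filter Topology
open FA.WignerSemicircle (limitMoment semicircle_value semiIntegral semiIntegral_zero)

/-- The semicircle integral. -/
def semiMean (f : ℝ → ℝ) : ℝ := (2 * Real.pi)⁻¹ * ∫ x in (-2 : ℝ)..2, f x * √(4 - x ^ 2)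

theorem intervalIntegrable_semi {f : ℝ → ℝ} (hf : Continuous f) :
    IntervalIntegrable (fun x => f x * √(4 - x ^ 2)) volume (-2) 2 :=
  (by fun_prop : Continuous fun x => f x * √(4 - x ^ 2)).intervalIntegrable _ _

theorem semiMean_poly (P : Polynomial ℝ) :
    semiMean (fun x => P.eval x) =
      ∑ i ∈ range (P.natDegree + 1), P.coeff i * limitMoment i := by
  simp only [semiMean, Polynomial.eval_eq_sum_range, Finset.sum_mul]
  rw [intervalIntegral.integral_finsetSum fun i _ =>
    intervalIntegrable_semi (f := fun x => P.coeff i * x ^ i) (by fun_prop), Finset.mul_sum]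
  refine sum_congr rfl fun i _ => ?_
  simp only [← semicircle_value, semiIntegral, mul_assoc, intervalIntegral.integral_const_mul]
  ring

theorem semiMean_mono {f g : ℝ → ℝ}
    (hf : IntervalIntegrable (fun x => f x * √(4 - x ^ 2)) volume (-2) 2)
    (hg : IntervalIntegrable (fun x => g x * √(4 - x ^ 2)) volume (-2) 2)
    (h : ∀ x ∈ Set.Icc (-2 : ℝ) 2, f x ≤ g x) : semiMean f ≤ semiMean g :=
  mul_le_mul_of_nonneg_left (intervalIntegral.integral_mono_on (by norm_num) hf hg fun x hx =>
    mul_le_mul_of_nonneg_right (h x hx) (Real.sqrt_nonneg _)) (by positivity)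

theorem semiMean_add_const {f : ℝ → ℝ} (hf : Continuous f) (c : ℝ) :
    semiMean (fun x => f x + c) = semiMean f + c := by
  have h0 : ∫ x in (-2 : ℝ)..2, √(4 - x ^ 2) = 2 * Real.pi := by
    simpa [semiIntegral] using semiIntegral_zero
  simp only [semiMean, add_mul]
  rw [intervalIntegral.integral_add (intervalIntegrable_semi hf)
    (intervalIntegrable_semi (f := fun _ => c) continuous_const),
    intervalIntegral.integral_const_mul, h0]
  field_simp

theorem abs_semiMean_sub_le {f g : ℝ → ℝ} (hf : Continuous f) (hg : Continuous g) {ε : ℝ}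
    (h : ∀ x ∈ Set.Icc (-2 : ℝ) 2, |f x - g x| ≤ ε) : |semiMean f - semiMean g| ≤ ε := by
  have h1 := semiMean_mono (g := fun x => g x + ε) (intervalIntegrable_semi hf)
    (intervalIntegrable_semi (hg.add continuous_const)) fun x hx => by
      linarith [(abs_le.1 (h x hx)).2]
  have h2 := semiMean_mono (g := fun x => f x + ε) (intervalIntegrable_semi hg)
    (intervalIntegrable_semi (hf.add continuous_const)) fun x hx => by
      linarith [(abs_le.1 (h x hx)).1]
  rw [semiMean_add_const hg] at h1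
  rw [semiMean_add_const hf] at h2
  exact abs_le.2 ⟨by linarith, by linarith⟩

theorem limitMoment_le (j : ℕ) : limitMoment (2 * j) ≤ 4 ^ j := by
  rw [limitMoment, if_pos (even_two_mul j), Nat.mul_div_cancel_left j two_pos]
  have h : catalan j ≤ 4 ^ j := by
    refine ((Nat.le_mul_of_pos_left _ (Nat.succ_pos j)).trans
      (succ_mul_catalan_eq_centralBinom j).le).trans ?_
    rw [Nat.centralBinom, show (4 : ℕ) ^ j = 2 ^ (2 * j) by rw [pow_mul]; norm_num]
    exact Nat.choose_le_two_pow _ _
  exact_mod_cast h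

/-- A continuous bounded function against a polynomial close to it on `[-3, 3]`. -/
theorem exists_majorant {f : ℝ → ℝ} {F : ℝ} (hb : ∀ x, |f x| ≤ F) (P : Polynomial ℝ) {ε : ℝ}
    (hε : 0 ≤ ε) (hP : ∀ x ∈ Set.Icc (-3 : ℝ) 3, |P.eval x - f x| ≤ ε) :
    ∃ K, 0 ≤ K ∧ ∀ j, P.natDegree ≤ j → ∀ x, |f x - P.eval x| ≤ ε + K / 9 ^ j * x ^ (2 * j) := by
  have hF : 0 ≤ F := (abs_nonneg _).trans (hb 0)
  set d := P.natDegree
  set A := F + ∑ i ∈ range (d + 1), |P.coeff i|
  have hA : 0 ≤ A := add_nonneg hF (sum_nonneg fun _ _ => abs_nonneg _)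
  refine ⟨A * 3 ^ d, by positivity, fun j hj x => ?_⟩
  have hpow : 0 ≤ x ^ (2 * j) := by rw [pow_mul]; positivity
  rcases le_or_gt |x| 3 with hx | hx
  · refine (abs_sub_comm _ _).trans_le ((hP x (Set.mem_Icc.2 (abs_le.1 hx))).trans ?_)
    exact le_add_of_nonneg_right (by positivity)
  · have h1 : (1 : ℝ) ≤ |x| := by linarith
    have hd : (1 : ℝ) ≤ |x| ^ d := one_le_pow₀ h1
    have hA1 : |f x - P.eval x| ≤ A * |x| ^ d := by
      refine (abs_sub _ _).trans ?_
      rw [add_mul, sum_mul, Polynomial.eval_eq_sum_range]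
      refine add_le_add ((hb x).trans (le_mul_of_one_le_right hF hd))
        ((abs_sum_le_sum_abs _ _).trans (sum_le_sum fun i hi => ?_))
      rw [abs_mul, abs_pow]
      exact mul_le_mul_of_nonneg_left
        (pow_le_pow_right₀ h1 (Nat.le_of_lt_succ (mem_range.1 hi))) (abs_nonneg _)
    obtain ⟨e, he⟩ := Nat.exists_eq_add_of_le (show d ≤ 2 * j by omega)
    have h9 : (9 : ℝ) ^ j = 3 ^ d * 3 ^ e := by
      rw [← pow_add, ← he, pow_mul]; norm_num
    have hx2 : x ^ (2 * j) = |x| ^ d * |x| ^ e := by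
      rw [← pow_add, ← he, (even_two_mul j).pow_abs]
    have h3 : (3 : ℝ) ^ e ≤ |x| ^ e := pow_le_pow_left₀ (by norm_num) hx.le e
    refine hA1.trans (le_add_of_nonneg_of_le hε ?_)
    rw [hx2, h9, div_mul_eq_mul_div, le_div_iff₀ (by positivity)]
    calc A * |x| ^ d * (3 ^ d * 3 ^ e) = A * 3 ^ d * |x| ^ d * 3 ^ e := by ring
      _ ≤ A * 3 ^ d * |x| ^ d * |x| ^ e := mul_le_mul_of_nonneg_left h3 (by positivity)
      _ = A * 3 ^ d * (|x| ^ d * |x| ^ e) := by ring

variable (μ : Measure ℝ) [IsProbabilityMeasure μ] (hμ : ∀ j : ℕ, Integrable (fun x => x ^ j) μ)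
  (h1 : ∫ x, x ∂μ = 0) (h2 : ∫ x, x ^ 2 ∂μ = 1)
include hμ h1 h2

/-- **The weak law.** -/
theorem tendsto_spectralMean {f : ℝ → ℝ} (hf : Continuous f) {F : ℝ} (hb : ∀ x, |f x| ≤ F) :
    Tendsto (fun n : ℕ => ∫ X, |spectralMean f X - semiMean f|
      ∂(Measure.pi fun _ : Sym2 (Fin n) => μ)) atTop (𝓝 0) := by
  refine Metric.tendsto_atTop'.2 fun η hη => ?_
  have hF : 0 ≤ F := (abs_nonneg _).trans (hb 0)
  obtain ⟨P, hP⟩ := exists_polynomial_near_of_continuousOn (-3) 3 f hf.continuousOn (η / 5)
    (by positivity)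
  obtain ⟨K, hK, hmaj⟩ := exists_majorant hb P (by positivity : (0 : ℝ) ≤ η / 5)
    fun x hx => (hP x hx).le
  have h49 : Tendsto (fun j : ℕ => K * (4 / 9 : ℝ) ^ j) atTop (𝓝 0) := by
    simpa using (tendsto_pow_atTop_nhds_zero_of_lt_one (by norm_num : (0 : ℝ) ≤ 4 / 9)
      (by norm_num)).const_mul K
  obtain ⟨j, hj, hjd⟩ := ((h49.eventually_lt_const (show (0 : ℝ) < η / 5 by positivity)).and
    (eventually_ge_atTop P.natDegree)).exists
  set d := P.natDegree
  have hlim := ((tendsto_finsetSum (range (d + 1)) fun i _ =>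
    (tendsto_abs_dist μ hμ h1 h2 i).const_mul |P.coeff i|).add
      ((tendsto_abs_dist μ hμ h1 h2 (2 * j)).const_mul (K / 9 ^ j)))
  simp only [mul_zero, sum_const_zero, add_zero] at hlim
  obtain ⟨N, hN⟩ := (hlim.eventually_lt_const (show (0 : ℝ) < η / 5 by positivity)).and
    (eventually_gt_atTop 0) |>.exists_forall_of_atTop
  refine ⟨N, fun n hn => ?_⟩
  obtain ⟨hsum, hn0⟩ := hN n hn.le
  rw [Real.dist_0_eq_abs, abs_of_nonneg (integral_nonneg fun X => abs_nonneg _)]
  set π' := Measure.pi fun _ : Sym2 (Fin n) => μ with hπ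
  have hpt : ∀ X : Sym2 (Fin n) → ℝ, |spectralMean f X - semiMean f| ≤
      (∑ i ∈ range (d + 1), |P.coeff i| * |scaledTrace i X - limitMoment i|) +
        K / 9 ^ j * |scaledTrace (2 * j) X - limitMoment (2 * j)| +
          (2 * (η / 5) + K / 9 ^ j * 4 ^ j) := fun X => by
    have a1 : |spectralMean f X - spectralMean (fun x => P.eval x) X| ≤
        η / 5 + K / 9 ^ j * scaledTrace (2 * j) X := by
      rw [← spectralMean_pow]
      simp only [spectralMean]
      rw [← mul_sub, ← sum_sub_distrib, abs_mul, abs_inv, Nat.abs_cast]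
      have hn1 : (0 : ℝ) < n := Nat.cast_pos.2 hn0
      rw [inv_mul_le_iff₀ hn1]
      refine (abs_sum_le_sum_abs _ _).trans ((sum_le_sum fun i _ => hmaj j hjd _).trans ?_)
      rw [sum_add_distrib, sum_const, card_univ, Fintype.card_fin, nsmul_eq_mul, ← mul_sum]
      rw [mul_add, mul_left_comm (n : ℝ), mul_inv_cancel_left₀ hn1.ne']
    have a2 : |spectralMean (fun x => P.eval x) X - semiMean (fun x => P.eval x)| ≤
        ∑ i ∈ range (d + 1), |P.coeff i| * |scaledTrace i X - limitMoment i| := by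
      rw [spectralMean_poly, semiMean_poly, ← sum_sub_distrib]
      refine (abs_sum_le_sum_abs _ _).trans (sum_le_sum fun i _ => ?_)
      rw [← mul_sub, abs_mul]
    have a3 : |semiMean (fun x => P.eval x) - semiMean f| ≤ η / 5 :=
      abs_semiMean_sub_le P.continuous hf fun x hx =>
        (hP x ⟨by linarith [hx.1], by linarith [hx.2]⟩).le
    have a4 : K / 9 ^ j * scaledTrace (2 * j) X ≤
        K / 9 ^ j * |scaledTrace (2 * j) X - limitMoment (2 * j)| + K / 9 ^ j * 4 ^ j := by
      rw [← mul_add]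
      refine mul_le_mul_of_nonneg_left ?_ (by positivity)
      linarith [le_abs_self (scaledTrace (2 * j) X - limitMoment (2 * j)), limitMoment_le j]
    have t1 := abs_sub_le (spectralMean f X) (spectralMean (fun x => P.eval x) X) (semiMean f)
    have t2 := abs_sub_le (spectralMean (fun x => P.eval x) X) (semiMean fun x => P.eval x)
      (semiMean f)
    linarith
  have hi : ∀ i, Integrable (fun X : Sym2 (Fin n) → ℝ => |scaledTrace i X - limitMoment i|) π' :=
    fun i => ((integrable_scaledTrace μ hμ n i).sub (integrable_const _)).abs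
  have hi1 : Integrable (fun X : Sym2 (Fin n) → ℝ =>
      ∑ i ∈ range (d + 1), |P.coeff i| * |scaledTrace i X - limitMoment i|) π' :=
    integrable_finsetSum _ fun i _ => (hi i).const_mul _
  have hi2 : Integrable (fun X : Sym2 (Fin n) → ℝ =>
      (∑ i ∈ range (d + 1), |P.coeff i| * |scaledTrace i X - limitMoment i|) +
        K / 9 ^ j * |scaledTrace (2 * j) X - limitMoment (2 * j)|) π' :=
    hi1.add ((hi _).const_mul _)
  refine (integral_mono ((integrable_spectralMean μ hf hF hb).sub (integrable_const _)).abs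
    (hi2.add (integrable_const _)) hpt).trans_lt ?_
  rw [integral_add' hi2 (integrable_const _), integral_add hi1 ((hi _).const_mul _),
    integral_finsetSum _ (fun i _ => (hi i).const_mul _), integral_const, probReal_univ, one_smul]
  simp only [integral_const_mul]
  have hK4 : K / 9 ^ j * 4 ^ j < η / 5 := by
    rw [div_mul_eq_mul_div, mul_div_assoc, ← div_pow]; exact hj
  linarith

end FA.WignerWeakLaw
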